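import Fermat.Agent.IdealKFree.Product
import Fermat.Agent.Root.SummaryIdealLandauCount

/-!
# Ideals free of `k`-th powers and coprime pairs of ideals

Inclusion and exclusion over sets of primes of norm `≤ x` and Landau's count in each term.
-/

set_option autoImplicit false
set_option linter.style.haveILetI false

noncomputable section

universe u

open NumberField IsDedekindDomain Module Filter Finset Ideal
open FA.IdealLandauCount (idealSum idealSum_nonneg abs_idealSum_sub_le residue_le_strip discPow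
  discPow_pos one_le_discPow stripConst stripConst_pos sumConst sumConst_nonneg)
open FA.Hecke (primesLE mem_primesLE)
open FA.StarkOdlyzko (zetaR zetaR_pos)
open scoped Topology Classical

namespace FA.IdealKFree

variable (K : Type u) [Field K] [NumberField K]

/-- The nonzero ideals of norm at most `x`. -/
def idealsLE (x : ℝ) : Finset (Ideal (𝓞 K)) :=
  ((finite_setOfPred_absNorm_le (S := 𝓞 K) ⌊x⌋₊).toFinset).filter fun I => absNorm I ≠ 0

theorem mem_idealsLE {x : ℝ} (hx : 0 ≤ x) {I : Ideal (𝓞 K)} :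
    I ∈ idealsLE K x ↔ absNorm I ≠ 0 ∧ (absNorm I : ℝ) ≤ x := by
  simp only [idealsLE, Finset.mem_filter, Set.Finite.mem_toFinset, Set.mem_ofPred_eq,
    Nat.le_floor_iff hx, and_comm]

theorem card_idealsLE {x : ℝ} (hx : 0 ≤ x) : ((idealsLE K x).card : ℝ) = idealSum K x := by
  rw [← FA.IdealLandauCount.Summary.card_eq_idealSum K hx, ← Nat.card_eq_finsetCard]
  congr 1
  exact Nat.card_congr (Equiv.subtypeEquivRight fun I => mem_idealsLE K hx)

/-- **The multiples of an ideal.** -/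
theorem card_multiples {x : ℝ} (hx : 0 ≤ x) {b : Ideal (𝓞 K)} (hb : absNorm b ≠ 0) :
    (((idealsLE K x).filter fun a => b ∣ a).card : ℝ) = idealSum K (x / absNorm b) := by
  have hb0 : (0 : ℝ) < absNorm b := Nat.cast_pos.2 (Nat.pos_of_ne_zero hb)
  have hbne : b ≠ 0 := fun h => hb (by rw [h]; simp)
  rw [← card_idealsLE K (div_nonneg hx hb0.le)]
  congr 1
  refine Eq.symm (Finset.card_bij (fun c _ => b * c) (fun c hc => ?_) (fun c _ c' _ h =>
    mul_left_cancel₀ hbne h) fun a ha => ?_)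
  · rw [mem_idealsLE K (div_nonneg hx hb0.le), le_div_iff₀ hb0] at hc
    rw [Finset.mem_filter, mem_idealsLE K hx, map_mul]
    refine ⟨⟨mul_ne_zero hb hc.1, ?_⟩, dvd_mul_right b c⟩
    push_cast
    linarith [hc.2]
  · rw [Finset.mem_filter, mem_idealsLE K hx] at ha
    obtain ⟨⟨h0, hle⟩, c, rfl⟩ := ha
    rw [map_mul] at h0 hle
    push_cast at hle
    refine ⟨c, ?_, rfl⟩
    rw [mem_idealsLE K (div_nonneg hx hb0.le), le_div_iff₀ hb0]
    exact ⟨right_ne_zero_of_mul h0, by linarith⟩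

/-- The product of the `k`-th powers of a set of primes. -/
def powProd (k : ℕ) (S : Finset (HeightOneSpectrum (𝓞 K))) : Ideal (𝓞 K) :=
  ∏ v ∈ S, v.asIdeal ^ k

theorem absNorm_powProd (k : ℕ) (S : Finset (HeightOneSpectrum (𝓞 K))) :
    absNorm (powProd K k S) = ∏ v ∈ S, absNorm v.asIdeal ^ k := by
  rw [powProd, map_prod]
  simp only [map_pow]

theorem absNorm_powProd_ne_zero (k : ℕ) (S : Finset (HeightOneSpectrum (𝓞 K))) :
    absNorm (powProd K k S) ≠ 0 := by
  rw [absNorm_powProd]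
  refine prod_ne_zero_iff.2 fun v _ => pow_ne_zero k ?_
  have := FA.Ext.two_le_absNorm v
  omega

theorem powProd_dvd_iff (k : ℕ) (S : Finset (HeightOneSpectrum (𝓞 K))) (a : Ideal (𝓞 K)) :
    powProd K k S ∣ a ↔ ∀ v ∈ S, v.asIdeal ^ k ∣ a := by
  rw [powProd]
  refine ⟨fun h v hv => dvd_trans (dvd_prod_of_mem (fun w : HeightOneSpectrum (𝓞 K) =>
    w.asIdeal ^ k) hv) h, fun h => ?_⟩
  refine Finset.prod_dvd_of_coprime (fun v _ w _ hvw => ?_) h
  show IsCoprime (v.asIdeal ^ k) (w.asIdeal ^ k)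
  exact IsCoprime.pow (isCoprime_iff_sup_eq.2 (v.isMaximal.coprime_of_ne w.isMaximal
    (fun he => hvw (HeightOneSpectrum.ext he))))

theorem prod_natCast_rpow (k : ℕ) (S : Finset (HeightOneSpectrum (𝓞 K))) (t : ℝ) :
    (absNorm (powProd K k S) : ℝ) ^ t =
      ∏ v ∈ S, ((absNorm v.asIdeal : ℕ) : ℝ) ^ ((k : ℝ) * t) := by
  rw [absNorm_powProd]
  push_cast
  rw [← Real.finsetProd_rpow _ _ (fun v _ => by positivity)]
  exact prod_congr rfl fun v _ => by rw [← Real.rpow_natCast_mul (Nat.cast_nonneg _)]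

theorem alt_sum_eq_ite {ι : Type*} (P : Finset ι) (q : ι → Prop) [DecidablePred q] :
    ∑ S ∈ P.powerset, (if ∀ v ∈ S, q v then (-1 : ℝ) ^ S.card else 0) =
      if ∀ v ∈ P, ¬ q v then 1 else 0 := by
  rw [← sum_filter]
  have e : P.powerset.filter (fun S => ∀ v ∈ S, q v) = (P.filter q).powerset := by
    ext S
    simp only [Finset.mem_filter, Finset.mem_powerset, Finset.subset_iff]
    exact ⟨fun h v hv => ⟨h.1 hv, h.2 v hv⟩, fun h => ⟨fun v hv => (h hv).1, fun v hv => (h hv).2⟩⟩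
  rw [e]
  have h := congrArg (fun z : ℤ => (z : ℝ)) (sum_powerset_neg_one_pow_card (x := P.filter q))
  push_cast at h
  rw [h]
  simp only [filter_eq_empty_iff]

theorem mem_primes_of_dvd {x : ℝ} (hx : 0 ≤ x) {v : HeightOneSpectrum (𝓞 K)} {a : Ideal (𝓞 K)}
    (ha : a ∈ idealsLE K x) (h : v.asIdeal ∣ a) : v ∈ primesLE K ⌊x⌋₊ := by
  rw [mem_idealsLE K hx] at ha
  rw [mem_primesLE, Nat.le_floor_iff hx]
  exact (Nat.cast_le.2 (Nat.le_of_dvd (Nat.pos_of_ne_zero ha.1) (map_dvd absNorm h))).trans ha.2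

/-- **Inclusion and exclusion for the ideals free of `k`-th powers.** -/
theorem kfree_sieve {k : ℕ} (hk : k ≠ 0) {x : ℝ} (hx : 0 ≤ x) :
    (((idealsLE K x).filter fun a => ∀ v : HeightOneSpectrum (𝓞 K), ¬ v.asIdeal ^ k ∣ a).card : ℝ) =
      ∑ S ∈ (primesLE K ⌊x⌋₊).powerset,
        (-1 : ℝ) ^ S.card * idealSum K (x / absNorm (powProd K k S)) := by
  have e : ∀ S ∈ (primesLE K ⌊x⌋₊).powerset,
      (-1 : ℝ) ^ S.card * idealSum K (x / absNorm (powProd K k S)) =
        ∑ a ∈ idealsLE K x, if ∀ v ∈ S, v.asIdeal ^ k ∣ a then (-1 : ℝ) ^ S.card else 0 :=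
    fun S _ => by
      rw [← sum_filter, sum_const, nsmul_eq_mul, ← card_multiples K hx
        (absNorm_powProd_ne_zero K k S), mul_comm]
      congr 3
      ext a
      simp [powProd_dvd_iff]
  rw [sum_congr rfl e, sum_comm, Finset.natCast_card_filter]
  refine sum_congr rfl fun a ha => ?_
  rw [alt_sum_eq_ite]
  refine if_congr ⟨fun h v _ => h v, fun h v hd => h v ?_ hd⟩ rfl rfl
  exact mem_primes_of_dvd K hx ha ((dvd_pow_self _ hk).trans hd)

/-- **Inclusion and exclusion for the coprime pairs.** -/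
theorem coprime_sieve {x : ℝ} (hx : 0 ≤ x) :
    ((((idealsLE K x) ×ˢ (idealsLE K x)).filter fun p => p.1 ⊔ p.2 = ⊤).card : ℝ) =
      ∑ S ∈ (primesLE K ⌊x⌋₊).powerset,
        (-1 : ℝ) ^ S.card * idealSum K (x / absNorm (powProd K 1 S)) ^ 2 := by
  have e : ∀ S ∈ (primesLE K ⌊x⌋₊).powerset,
      (-1 : ℝ) ^ S.card * idealSum K (x / absNorm (powProd K 1 S)) ^ 2 =
        ∑ p ∈ idealsLE K x ×ˢ idealsLE K x,
          if ∀ v ∈ S, v.asIdeal ∣ p.1 ∧ v.asIdeal ∣ p.2 then (-1 : ℝ) ^ S.card else 0 :=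
    fun S _ => by
      rw [← sum_filter, sum_const, nsmul_eq_mul, ← card_multiples K hx
        (absNorm_powProd_ne_zero K 1 S), mul_comm, sq, ← Nat.cast_mul, ← card_product,
        ← filter_product]
      congr 3
      ext p
      simp only [Finset.mem_filter, powProd_dvd_iff, pow_one]
      exact and_congr_right fun _ => ⟨fun h v hv => ⟨h.1 v hv, h.2 v hv⟩,
        fun h => ⟨fun v hv => (h v hv).1, fun v hv => (h v hv).2⟩⟩
  rw [sum_congr rfl e, sum_comm, Finset.natCast_card_filter]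
  refine sum_congr rfl fun p hp => ?_
  rw [alt_sum_eq_ite (primesLE K ⌊x⌋₊) fun v => v.asIdeal ∣ p.1 ∧ v.asIdeal ∣ p.2]
  obtain ⟨hp1, -⟩ := Finset.mem_product.1 hp
  refine if_congr ⟨fun h v _ hv => ?_, fun h => ?_⟩ rfl rfl
  · exact v.isPrime.ne_top (top_le_iff.1 (h ▸ sup_le (Ideal.dvd_iff_le.1 hv.1)
      (Ideal.dvd_iff_le.1 hv.2)))
  · by_contra hne
    obtain ⟨M, hM, hle⟩ := exists_le_maximal _ hne
    have h0 : p.1 ≠ ⊥ := fun e0 => by
      have := ((mem_idealsLE K hx).1 hp1).1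
      simp [e0] at this
    have hM0 : M ≠ ⊥ := fun e0 => h0 (le_bot_iff.1 (e0 ▸ le_sup_left.trans hle))
    obtain ⟨v, hv⟩ : ∃ v : HeightOneSpectrum (𝓞 K), v.asIdeal = M :=
      ⟨⟨M, hM.isPrime, hM0⟩, rfl⟩
    have a1 : v.asIdeal ∣ p.1 := Ideal.dvd_iff_le.2 (hv ▸ le_sup_left.trans hle)
    have a2 : v.asIdeal ∣ p.2 := Ideal.dvd_iff_le.2 (hv ▸ le_sup_right.trans hle)
    exact h v (mem_primes_of_dvd K hx hp1 a1) ⟨a1, a2⟩

/-- The constant for every `x ≥ 0`. -/
def countBase (n : ℕ) : ℝ := 3 * sumConst n + 30 * stripConst n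

theorem countBase_nonneg (n : ℕ) : 0 ≤ countBase n := by
  have := stripConst_pos n
  have := sumConst_nonneg n
  unfold countBase
  linarith

variable {K} {n : ℕ} (hn : 1 ≤ n) (hK : finrank ℚ K ≤ n)

include hn in
theorem expo_bounds : (3 : ℝ) / 4 ≤ 1 - 1 / (4 * n) ∧ (1 : ℝ) - 1 / (4 * n) ≤ 1 := by
  have hn' : (1 : ℝ) ≤ n := Nat.one_le_cast.2 hn
  have := div_le_div_of_nonneg_left zero_le_one four_pos (show (4 : ℝ) ≤ 4 * n by linarith)
  exact ⟨by linarith, sub_le_self _ (by positivity)⟩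

include hn hK in
theorem residue_le_base :
    dedekindZeta_residue K ≤ countBase n * discPow K n := by
  refine (residue_le_strip hn hK).trans (mul_le_mul_of_nonneg_right ?_ (discPow_pos K n).le)
  have := sumConst_nonneg n
  have := stripConst_pos n
  unfold countBase
  linarith

include hn hK in
theorem count_le {y : ℝ} (hy : 0 ≤ y) :
    |idealSum K y - dedekindZeta_residue K * y| ≤
      countBase n * discPow K n * y ^ (1 - 1 / (4 * n) : ℝ) := by
  rcases le_or_gt 1 y with h1 | h1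
  · exact abs_idealSum_sub_le hn hK h1
  · rw [idealSum, Nat.floor_eq_zero.2 h1]
    simp only [show Finset.Icc 1 0 = (∅ : Finset ℕ) from rfl, sum_empty, zero_sub, abs_neg]
    rw [abs_of_nonneg (mul_nonneg (dedekindZeta_residue_pos K).le hy)]
    exact mul_le_mul (residue_le_base hn hK)
      (Real.self_le_rpow_of_le_one hy h1.le (expo_bounds hn).2) hy
      (mul_nonneg (countBase_nonneg n) (discPow_pos K n).le)

include hn hK in
theorem count_sq_le {y : ℝ} (hy : 0 ≤ y) :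
    |idealSum K y ^ 2 - (dedekindZeta_residue K * y) ^ 2| ≤
      3 * (countBase n * discPow K n) ^ 2 * y ^ (2 - 1 / (4 * n) : ℝ) := by
  obtain ⟨A, hA⟩ : ∃ A, A = countBase n * discPow K n := ⟨_, rfl⟩
  have hA0 : 0 ≤ A := hA ▸ mul_nonneg (countBase_nonneg n) (discPow_pos K n).le
  obtain ⟨e, he⟩ : ∃ e, e = (1 - 1 / (4 * n) : ℝ) := ⟨_, rfl⟩
  have he0 : 0 ≤ e := he ▸ le_trans (by norm_num) (expo_bounds hn).1
  have he1 : e ≤ 1 := he ▸ (expo_bounds hn).2
  have hres := residue_le_base hn hK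
  have hres0 := (dedekindZeta_residue_pos K).le
  rw [← hA] at hres ⊢
  rw [show (2 - 1 / (4 * n) : ℝ) = e + 1 by rw [he]; ring,
    Real.rpow_add_of_nonneg hy he0 zero_le_one, Real.rpow_one]
  rcases le_or_gt 1 y with h1 | h1
  · have hd := abs_idealSum_sub_le hn hK h1
    rw [← he, show 3 * sumConst n + 30 * stripConst n = countBase n from rfl, ← hA] at hd
    have hle := Real.rpow_le_rpow_of_exponent_le h1 he1
    rw [Real.rpow_one] at hle
    rw [sq_sub_sq, abs_mul, mul_comm |idealSum K y + _|]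
    refine (mul_le_mul (d := 3 * A * y) hd ?_ (abs_nonneg _)
      (by positivity)).trans (le_of_eq (by ring))
    rw [abs_of_nonneg (add_nonneg (idealSum_nonneg K y) (mul_nonneg hres0 hy))]
    have := mul_le_mul_of_nonneg_left hle hA0
    have := mul_le_mul_of_nonneg_right hres hy
    linarith [(abs_le.1 hd).2]
  · rw [idealSum, Nat.floor_eq_zero.2 h1]
    simp only [show Finset.Icc 1 0 = (∅ : Finset ℕ) from rfl, sum_empty]
    rw [zero_pow two_ne_zero, zero_sub, abs_neg, abs_of_nonneg (sq_nonneg _), mul_pow]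
    calc dedekindZeta_residue K ^ 2 * y ^ 2 ≤ A ^ 2 * (y ^ e * y) := by
          refine mul_le_mul (pow_le_pow_left₀ hres0 hres 2) ?_ (sq_nonneg y) (sq_nonneg A)
          rw [sq]
          exact mul_le_mul_of_nonneg_right (Real.self_le_rpow_of_le_one hy h1.le he1) hy
      _ ≤ _ := mul_le_mul_of_nonneg_right (by nlinarith) (by positivity)

include hK in
/-- **The alternating sum over the sets of primes.** -/
theorem sieve_estimate {k : ℕ} (F : ℝ → ℝ) {r A x : ℝ} {t : ℝ} {j : ℕ} (hkj : 2 ≤ k * j)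
    (hx : 1 ≤ x) (ht : (j : ℝ) - 1 / 2 ≤ t) (hkt : 3 / 2 ≤ (k : ℝ) * t) (hr : |r| ≤ A)
    (hF : ∀ y, 0 ≤ y → |F y - r * y ^ j| ≤ A * y ^ t) :
    |(∑ S ∈ (primesLE K ⌊x⌋₊).powerset, (-1 : ℝ) ^ S.card * F (x / absNorm (powProd K k S))) -
        r * x ^ j * (zetaR K ((k * j : ℕ) : ℝ))⁻¹| ≤ 2 * A * prodBound n * x ^ t := by
  obtain ⟨P, hP⟩ : ∃ P, P = primesLE K ⌊x⌋₊ := ⟨_, rfl⟩
  obtain ⟨m, hm⟩ : ∃ m : Finset (HeightOneSpectrum (𝓞 K)) → ℝ,
      m = fun S => (absNorm (powProd K k S) : ℝ) := ⟨_, rfl⟩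
  have hm0 : ∀ S, 0 < m S := fun S =>
    hm ▸ Nat.cast_pos.2 (Nat.pos_of_ne_zero (absNorm_powProd_ne_zero K k S))
  have hA0 : 0 ≤ A := (abs_nonneg r).trans hr
  have hx0 : 0 < x := by linarith
  have hE := one_le_prodBound n
  have herr : |(∑ S ∈ P.powerset, (-1 : ℝ) ^ S.card * F (x / m S)) -
      ∑ S ∈ P.powerset, (-1 : ℝ) ^ S.card * (r * (x / m S) ^ j)| ≤
      A * prodBound n * x ^ t := by
    rw [← sum_sub_distrib]
    refine (abs_sum_le_sum_abs _ _).trans ?_
    refine (sum_le_sum (g := fun S => A * x ^ t *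
      ∏ v ∈ S, ((absNorm v.asIdeal : ℕ) : ℝ) ^ (-((k : ℝ) * t))) fun S _ => ?_).trans ?_
    · rw [← mul_sub, abs_mul, abs_pow, abs_neg, abs_one, one_pow, one_mul]
      refine (hF _ (div_pos hx0 (hm0 S)).le).trans (le_of_eq ?_)
      rw [Real.div_rpow hx0.le (hm0 S).le, div_eq_mul_inv, ← Real.rpow_neg (hm0 S).le, hm]
      simp only
      rw [prod_natCast_rpow, mul_assoc, mul_neg]
    · rw [← mul_sum, ← prod_one_add, mul_right_comm A (prodBound n)]
      exact mul_le_mul_of_nonneg_left (prod_one_add_le hK P hkt) (by positivity)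
  have hmain : ∑ S ∈ P.powerset, (-1 : ℝ) ^ S.card * (r * (x / m S) ^ j) =
      r * x ^ j * ∏ v ∈ P, (1 - ((absNorm v.asIdeal : ℕ) : ℝ) ^ (-((k * j : ℕ) : ℝ))) := by
    simp only [sub_eq_add_neg]
    rw [prod_one_add, mul_sum]
    refine sum_congr rfl fun S _ => ?_
    rw [prod_neg, hm, div_pow]
    simp only
    rw [absNorm_powProd]
    push_cast
    rw [← prod_pow, div_eq_mul_inv, ← prod_inv_distrib,
      prod_congr rfl fun v _ => show ((((absNorm v.asIdeal : ℕ) : ℝ) ^ k) ^ j)⁻¹ =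
        ((absNorm v.asIdeal : ℕ) : ℝ) ^ (-((k : ℝ) * (j : ℝ))) by
        rw [Real.rpow_neg (Nat.cast_nonneg _), ← Nat.cast_mul, Real.rpow_natCast, pow_mul]]
    ring
  have hL := abs_prod_sub_le hK (σ := ((k * j : ℕ) : ℝ)) (Nat.ofNat_le_cast.2 hkj) hx
  rw [← hP] at hL ⊢
  rw [hmain] at herr
  simp only [hm] at herr
  refine (abs_sub_le _ _ _).trans ((add_le_add herr (le_of_eq_of_le ?_ ((mul_le_mul
    (c := |(∏ v ∈ P, (1 - ((absNorm v.asIdeal : ℕ) : ℝ) ^ (-((k * j : ℕ) : ℝ)))) -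
      (zetaR K ((k * j : ℕ) : ℝ))⁻¹|) (mul_le_mul_of_nonneg_right hr (pow_nonneg hx0.le j)) hL
    (abs_nonneg _) (by positivity)).trans (?_ : _ ≤ A * prodBound n * x ^ t)))).trans
    (le_of_eq (by ring)))
  · rw [← mul_sub, abs_mul, abs_mul, abs_of_nonneg (pow_nonneg hx0.le j)]
  · rw [← Real.rpow_natCast x j, mul_mul_mul_comm, ← Real.rpow_add hx0]
    exact mul_le_mul_of_nonneg_left (Real.rpow_le_rpow_of_exponent_le hx (by linarith))
      (by positivity)

include hn hK in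
theorem kfree_estimate {k : ℕ} (hk : 2 ≤ k) {x : ℝ} (hx : 1 ≤ x) :
    |(((idealsLE K x).filter fun a => ∀ v : HeightOneSpectrum (𝓞 K),
        ¬ v.asIdeal ^ k ∣ a).card : ℝ) - dedekindZeta_residue K / zetaR K k * x| ≤
      2 * (countBase n * discPow K n) * prodBound n * x ^ (1 - 1 / (4 * n) : ℝ) := by
  obtain ⟨he1, he2⟩ := expo_bounds hn
  have hk' : (2 : ℝ) ≤ k := Nat.ofNat_le_cast.2 hk
  have h := sieve_estimate hK (k := k) (j := 1) (idealSum K) (r := dedekindZeta_residue K)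
    (A := countBase n * discPow K n) (t := (1 - 1 / (4 * n) : ℝ)) (by omega) hx
    (by push_cast; linarith) (by nlinarith)
    (by rw [abs_of_pos (dedekindZeta_residue_pos K)]; exact residue_le_base hn hK)
    (fun y hy => by rw [pow_one]; exact count_le hn hK hy)
  rw [kfree_sieve K (by omega) (by linarith)]
  refine le_trans (le_of_eq ?_) h
  rw [mul_one, pow_one]
  ring_nf

include hn hK in
theorem coprime_estimate {x : ℝ} (hx : 1 ≤ x) :
    |((((idealsLE K x) ×ˢ (idealsLE K x)).filter fun p => p.1 ⊔ p.2 = ⊤).card : ℝ) -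
        dedekindZeta_residue K ^ 2 / zetaR K 2 * x ^ 2| ≤
      6 * (countBase n * discPow K n) ^ 2 * prodBound n * x ^ (2 - 1 / (4 * n) : ℝ) := by
  obtain ⟨he1, he2⟩ := expo_bounds hn
  obtain ⟨B, hB⟩ : ∃ B, B = countBase n * discPow K n := ⟨_, rfl⟩
  have hres := residue_le_base hn hK
  have h := sieve_estimate hK (k := 1) (j := 2) (fun y => idealSum K y ^ 2)
    (r := dedekindZeta_residue K ^ 2) (A := 3 * B ^ 2) (t := (2 - 1 / (4 * n) : ℝ)) le_rfl hx
    (by push_cast; linarith) (by push_cast; linarith)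
    (by rw [abs_of_nonneg (sq_nonneg _)]
        nlinarith [pow_le_pow_left₀ (dedekindZeta_residue_pos K).le (hB ▸ hres) 2])
    (fun y hy => by
      rw [hB, ← mul_pow]
      exact count_sq_le hn hK hy)
  rw [coprime_sieve K (by linarith), ← hB]
  refine le_trans (le_of_eq ?_) (h.trans (le_of_eq (by ring)))
  rw [show ((1 * 2 : ℕ) : ℝ) = 2 by norm_num]
  ring_nf

end FA.IdealKFree

end
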