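import Fermat.Agent.HeckeBS.EulerBound
import Fermat.Agent.StarkOdlyzko.Monotone
import Fermat.Agent.AbelianZeta.Euler
import Fermat.Agent.NaturalChebotarev.Counting
import Fermat.Agent.MertensThird.Extreme
import Fermat.Agent.DedekindZeroFree.Main

/-!
# Partial Euler products at `σ ≥ 2`

`|∏_{N p ≤ x} (1 - N p ^ (-σ)) - 1/ζ_K σ| ≤ e ^ (n c) x ^ (-1/2)`, `c` the constant of `σ = 3/2`.
-/

set_option autoImplicit false
set_option linter.style.haveILetI false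

noncomputable section

universe u

open NumberField IsDedekindDomain Module Filter Finset Ideal
open FA.HeckeBS (eulerConst sum_prime_rpow_le)
open FA.Hecke (primesLE mem_primesLE)
open FA.StarkOdlyzko (zetaR zetaR_pos dedekindZeta_ofReal)
open scoped Topology

namespace FA.IdealKFree

variable (K : Type u) [Field K] [NumberField K]

/-- The constant of the Euler products. -/
def prodBound (n : ℕ) : ℝ := Real.exp (n * eulerConst (3 / 2))

theorem one_le_prodBound (n : ℕ) : 1 ≤ prodBound n :=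
  Real.one_le_exp (mul_nonneg (Nat.cast_nonneg _) (FA.DedekindZF.eulerConst_nonneg _))

theorem one_lt_normR (v : HeightOneSpectrum (𝓞 K)) : (1 : ℝ) < absNorm v.asIdeal :=
  Nat.one_lt_cast.2 (FA.Ext.two_le_absNorm v)

variable {K} {n : ℕ} (hK : finrank ℚ K ≤ n)

include hK in
theorem sum_rpow_le (T : Finset (HeightOneSpectrum (𝓞 K))) {s : ℝ} (hs : 3 / 2 ≤ s) :
    ∑ v ∈ T, ((absNorm v.asIdeal : ℕ) : ℝ) ^ (-s) ≤ n * eulerConst (3 / 2) := by
  refine (sum_le_sum fun v _ => Real.rpow_le_rpow_of_exponent_le (one_lt_normR K v).le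
    (show -s ≤ -(3 / 2) by linarith)).trans ?_
  have h := sum_prime_rpow_le T (show (1 : ℝ) < 3 / 2 by norm_num)
  have h0 : 0 ≤ ∑ v ∈ T, ((absNorm v.asIdeal : ℕ) : ℝ) ^ (-(3 / 2 : ℝ)) :=
    sum_nonneg fun v _ => by positivity
  have := mul_le_mul_of_nonneg_right (Nat.cast_le.2 hK : (finrank ℚ K : ℝ) ≤ n)
    (FA.DedekindZF.eulerConst_nonneg (3 / 2))
  linarith

include hK in
theorem prod_one_add_le (T : Finset (HeightOneSpectrum (𝓞 K))) {s : ℝ} (hs : 3 / 2 ≤ s) :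
    ∏ v ∈ T, (1 + ((absNorm v.asIdeal : ℕ) : ℝ) ^ (-s)) ≤ prodBound n :=
  (prod_le_prod (fun v _ => by positivity) fun v _ => (add_comm _ _).trans_le
    (Real.add_one_le_exp _)).trans
    (by rw [← Real.exp_sum]; exact Real.exp_le_exp.2 (sum_rpow_le hK T hs))

theorem rpow_neg_le_one (v : HeightOneSpectrum (𝓞 K)) {s : ℝ} (hs : 0 ≤ s) :
    ((absNorm v.asIdeal : ℕ) : ℝ) ^ (-s) ≤ 1 :=
  Real.rpow_le_one_of_one_le_of_nonpos (one_lt_normR K v).le (by linarith)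

/-- The finite products tend to `1/ζ_K σ`. -/
theorem tendsto_prod_one_sub {σ : ℝ} (hσ : 1 < σ) :
    Tendsto (fun T : Finset (HeightOneSpectrum (𝓞 K)) =>
      ∏ v ∈ T, (1 - ((absNorm v.asIdeal : ℕ) : ℝ) ^ (-σ))) atTop (𝓝 (zetaR K σ)⁻¹) := by
  have h : Tendsto (fun T : Finset (HeightOneSpectrum (𝓞 K)) =>
      ‖∏ v ∈ T, (1 - ((absNorm v.asIdeal : ℕ) : ℂ) ^ (-(σ : ℂ)))⁻¹‖) atTop
      (𝓝 ‖dedekindZeta K (σ : ℂ)‖) :=
    (FA.AbelianZeta.hasProd_primes (F := K) (s := (σ : ℂ)) (by simpa using hσ)).norm.congr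
      fun T => (norm_prod T _).symm
  rw [dedekindZeta_ofReal K hσ, Complex.norm_real, Real.norm_of_nonneg (zetaR_pos K hσ).le] at h
  refine (h.inv₀ (zetaR_pos K hσ).ne').congr fun T => ?_
  rw [norm_prod, ← prod_inv_distrib]
  refine prod_congr rfl fun v _ => ?_
  rw [norm_inv, inv_inv, ← Complex.ofReal_natCast, ← Complex.ofReal_neg,
    ← Complex.ofReal_cpow (Nat.cast_nonneg _), ← Complex.ofReal_one, ← Complex.ofReal_sub,
    Complex.norm_real, Real.norm_of_nonneg (sub_nonneg.2 (rpow_neg_le_one v (by linarith)))]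

include hK in
/-- **The truncation.** -/
theorem abs_prod_sub_le {σ : ℝ} (hσ : 2 ≤ σ) {x : ℝ} (hx : 1 ≤ x) :
    |(∏ v ∈ primesLE K ⌊x⌋₊, (1 - ((absNorm v.asIdeal : ℕ) : ℝ) ^ (-σ))) - (zetaR K σ)⁻¹| ≤
      prodBound n * x ^ (-(1 / 2) : ℝ) := by
  classical
  obtain ⟨P, hP⟩ : ∃ P, P = primesLE K ⌊x⌋₊ := ⟨_, rfl⟩
  rw [← hP]
  obtain ⟨y, hy⟩ : ∃ y : HeightOneSpectrum (𝓞 K) → ℝ,
      y = fun v => ((absNorm v.asIdeal : ℕ) : ℝ) ^ (-σ) := ⟨_, rfl⟩
  have hy0 : ∀ v, 0 ≤ y v := fun v => hy ▸ Real.rpow_nonneg (Nat.cast_nonneg _) _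
  have hy1 : ∀ v, y v ≤ 1 := fun v => hy ▸ rpow_neg_le_one v (by linarith)
  have hlim := tendsto_prod_one_sub (K := K) (show 1 < σ by linarith)
  rw [show (fun T : Finset (HeightOneSpectrum (𝓞 K)) =>
    ∏ v ∈ T, (1 - ((absNorm v.asIdeal : ℕ) : ℝ) ^ (-σ))) = fun T => ∏ v ∈ T, (1 - y v) by rw [hy]]
    at hlim
  rw [show (∏ v ∈ P, (1 - ((absNorm v.asIdeal : ℕ) : ℝ) ^ (-σ))) = ∏ v ∈ P, (1 - y v) by rw [hy],
    abs_sub_comm]
  have hp0 : ∀ S : Finset (HeightOneSpectrum (𝓞 K)), 0 ≤ ∏ v ∈ S, (1 - y v) := fun S =>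
    prod_nonneg fun v _ => sub_nonneg.2 (hy1 v)
  have hp1 : ∀ S : Finset (HeightOneSpectrum (𝓞 K)), ∏ v ∈ S, (1 - y v) ≤ 1 := fun S =>
    prod_le_one (fun v _ => sub_nonneg.2 (hy1 v)) fun v _ => sub_le_self _ (hy0 v)
  refine le_of_tendsto (hlim.sub_const _).abs ?_
  filter_upwards [eventually_ge_atTop P] with T hT
  rw [← prod_sdiff hT]
  have hlow := FA.MertensThird.one_sub_sum_le_prod_one_sub (T \ P) (f := y) (fun v _ => hy0 v)
    fun v _ => hy1 v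
  have htail : ∑ v ∈ T \ P, y v ≤ prodBound n * x ^ (-(1 / 2) : ℝ) := by
    refine (sum_le_sum (g := fun v : HeightOneSpectrum (𝓞 K) =>
      x ^ (-(1 / 2) : ℝ) * ((absNorm v.asIdeal : ℕ) : ℝ) ^ (-(3 / 2) : ℝ)) fun v hv => ?_).trans ?_
    · rw [Finset.mem_sdiff, hP, mem_primesLE, not_le] at hv
      have hxv : x < absNorm v.asIdeal := Nat.lt_of_floor_lt hv.2
      simp only [hy]
      refine le_trans (Real.rpow_le_rpow_of_exponent_le (one_lt_normR K v).le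
        (show -σ ≤ -(1 / 2) + -(3 / 2) by linarith)) ?_
      rw [Real.rpow_add (by linarith)]
      exact mul_le_mul_of_nonneg_right
        (Real.rpow_le_rpow_of_nonpos (by linarith) hxv.le (by norm_num)) (by positivity)
    · rw [← mul_sum, mul_comm]
      refine mul_le_mul_of_nonneg_right ?_ (by positivity)
      refine (sum_rpow_le hK (T \ P) le_rfl).trans ?_
      rw [prodBound]
      linarith [Real.add_one_le_exp ((n : ℝ) * eulerConst (3 / 2))]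
  rw [show (∏ v ∈ T \ P, (1 - y v)) * ∏ v ∈ P, (1 - y v) - ∏ v ∈ P, (1 - y v) =
    -((∏ v ∈ P, (1 - y v)) * (1 - ∏ v ∈ T \ P, (1 - y v))) by ring, abs_neg,
    abs_of_nonneg (mul_nonneg (hp0 P) (sub_nonneg.2 (hp1 _)))]
  exact (mul_le_of_le_one_left (sub_nonneg.2 (hp1 _)) (hp1 P)).trans (by linarith)

end FA.IdealKFree

end
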